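import Fermat.Agent.S56.EC.HQ.Lattice
import Fermat.Agent.S56.EC.HQ.Hom
import Fermat.Agent.S14.SUnits
import Fermat.Agent.S14.Basic.Sigma

/-!
# S56 / EC / Units : definitions.     `M/ℚ` a Galois number field, `Γ = Gal(M/ℚ) = (M ≃ₐ[ℚ] M)`.

* `plAct` : the action of `Γ` on the finite places (`S14.sigmaPl`), `plSub s hs` the `Γ`-set of a stable finite set `s`;
* the action on the infinite places is Mathlib's;
* `suZRep s hs` : `Γ` acting on the `s`-units `S14.SU s` (a `ℤ`-representation on `Additive (SU s)`);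
* `modPRep p M` : `Γ` acting on `M^×/p = S14.ModP p M`;  `suRep p s hs` : the sub-representation on `S14.SU.space p s = E_s/p`.
WP EC-U0 : done (all proofs are one-liners on generators).
-/

set_option autoImplicit false

namespace Fermat.Agent.S56.EC

open Fermat.Agent.S14 NumberField

variable (M : Type) [Field M] [NumberField M]

/-- the action of the Galois group on the finite places -/
@[reducible] noncomputable def plAct : MulAction (M ≃ₐ[ℚ] M) (Pl M) where
  smul g v := sigmaPl g v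
  one_smul v := sigmaPl_one v
  mul_smul g h v := sigmaPl_mul g h v

attribute [local instance] plAct

variable {M}

lemma plAct_smul (g : M ≃ₐ[ℚ] M) (v : Pl M) : g • v = sigmaPl g v := rfl

/-- a Galois stable finite set of places, as a `Γ`-set -/
noncomputable def plSub (s : Finset (Pl M)) (hs : ∀ g : M ≃ₐ[ℚ] M, ∀ v ∈ s, sigmaPl g v ∈ s) :
    SubMulAction (M ≃ₐ[ℚ] M) (Pl M) where
  carrier := {v | v ∈ s}
  smul_mem' g _ hv := hs g _ hv

lemma mem_plSub {s : Finset (Pl M)} {hs : ∀ g : M ≃ₐ[ℚ] M, ∀ v ∈ s, sigmaPl g v ∈ s} {v : Pl M} :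
    v ∈ plSub s hs ↔ v ∈ s := Iff.rfl

instance (s : Finset (Pl M)) (hs : ∀ g : M ≃ₐ[ℚ] M, ∀ v ∈ s, sigmaPl g v ∈ s) :
    Finite ↥(plSub s hs) :=
  Finite.of_injective (fun v : ↥(plSub s hs) => (⟨v.1, v.2⟩ : ↥s))
    (fun _ _ h => Subtype.ext (congrArg (fun x : ↥s => x.1) h))

lemma map_mem_SU {s : Finset (Pl M)} (hs : ∀ g : M ≃ₐ[ℚ] M, ∀ v ∈ s, sigmaPl g v ∈ s)
    (g : M ≃ₐ[ℚ] M) (x : Mˣ) (hx : x ∈ SU s) : Units.map (g : M →* M) x ∈ SU s := by
  intro v hv
  have h1 : v = sigmaPl g (sigmaPl g⁻¹ v) := by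
    rw [← sigmaPl_mul, mul_inv_cancel, sigmaPl_one]
  have h2 : sigmaPl g⁻¹ v ∉ s := by
    intro h
    apply hv
    rw [h1]
    exact hs g _ h
  rw [h1]
  change ord (sigmaPl g (sigmaPl g⁻¹ v)) (g (x : M)) = 0
  rw [ord_sigmaPl]
  exact hx _ h2

/-- `Γ` acting on the `s`-units -/
noncomputable def suZRep (s : Finset (Pl M)) (hs : ∀ g : M ≃ₐ[ℚ] M, ∀ v ∈ s, sigmaPl g v ∈ s) :
    Representation ℤ (M ≃ₐ[ℚ] M) (Additive ↥(SU s)) where
  toFun g := AddMonoidHom.toIntLinearMap (MonoidHom.toAdditive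
    (((Units.map (g : M →* M)).comp (SU s).subtype).codRestrict (SU s)
      (fun x => map_mem_SU hs g x.1 x.2)))
  map_one' := by
    apply LinearMap.ext
    intro x
    exact congrArg Additive.ofMul (Subtype.ext (Units.ext rfl))
  map_mul' g h := by
    apply LinearMap.ext
    intro x
    exact congrArg Additive.ofMul (Subtype.ext (Units.ext rfl))

lemma suZRep_coe (s : Finset (Pl M)) (hs : ∀ g : M ≃ₐ[ℚ] M, ∀ v ∈ s, sigmaPl g v ∈ s)
    (g : M ≃ₐ[ℚ] M) (x : Additive ↥(SU s)) :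
    (((suZRep s hs g x).toMul : ↥(SU s)) : Mˣ) = Units.map (g : M →* M) ((x.toMul : ↥(SU s)) : Mˣ) :=
  rfl

variable (M) in
/-- `Γ` acting on `M^×/p` -/
noncomputable def modPRep (p : ℕ) [Fact p.Prime] :
    Representation (ZMod p) (M ≃ₐ[ℚ] M) (ModP p M) where
  toFun g := AddMonoidHom.toZModLinearMap p (MonoidHom.toAdditive
    (QuotientGroup.map _ _ (Units.map (g : M →* M)) (by
      rintro _ ⟨c, rfl⟩
      exact ⟨Units.map (g : M →* M) c, (map_pow _ _ _).symm⟩)))
  map_one' := by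
    apply LinearMap.ext
    intro a
    induction a using Additive.rec with
    | ofMul a =>
      induction a using QuotientGroup.induction_on with
      | H x => exact congrArg (clsU p) (Units.ext rfl : Units.map ((1 : M ≃ₐ[ℚ] M) : M →* M) x = x)
  map_mul' g h := by
    apply LinearMap.ext
    intro a
    induction a using Additive.rec with
    | ofMul a =>
      induction a using QuotientGroup.induction_on with
      | H x => exact congrArg (clsU p) (Units.ext rfl : Units.map ((g * h : M ≃ₐ[ℚ] M) : M →* M) x =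
          Units.map (g : M →* M) (Units.map (h : M →* M) x))

lemma modPRep_clsU (p : ℕ) [Fact p.Prime] (g : M ≃ₐ[ℚ] M) (x : Mˣ) :
    modPRep M p g (clsU p x) = clsU p (Units.map (g : M →* M) x) := rfl

lemma modPRep_cls (p : ℕ) [Fact p.Prime] (g : M ≃ₐ[ℚ] M) (x : M) :
    modPRep M p g (cls p x) = cls p (g x) := by
  by_cases hx : x = 0
  · rw [hx, map_zero, cls_zero, map_zero]
  · have hgx : g x ≠ 0 := by simpa using hx
    rw [cls_of_ne_zero hx, cls_of_ne_zero hgx, modPRep_clsU]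
    exact congrArg (clsU p) (Units.ext rfl)

lemma modPRep_mem_space (p : ℕ) [Fact p.Prime] {s : Finset (Pl M)}
    (hs : ∀ g : M ≃ₐ[ℚ] M, ∀ v ∈ s, sigmaPl g v ∈ s) (g : M ≃ₐ[ℚ] M) (a : ModP p M)
    (ha : a ∈ SU.space p s) : modPRep M p g a ∈ SU.space p s := by
  obtain ⟨x, rfl⟩ := ha
  rw [SU.clsHom_apply, modPRep_clsU]
  exact ⟨Additive.ofMul ⟨_, map_mem_SU hs g _ x.toMul.2⟩, rfl⟩

/-- `Γ` acting on `E_s/p ⊆ M^×/p` -/
noncomputable def suRep (p : ℕ) [Fact p.Prime] (s : Finset (Pl M))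
    (hs : ∀ g : M ≃ₐ[ℚ] M, ∀ v ∈ s, sigmaPl g v ∈ s) :
    Representation (ZMod p) (M ≃ₐ[ℚ] M) ↥(SU.space p s) :=
  subRep (modPRep M p) (SU.space p s) (modPRep_mem_space p hs)

/-- the class map `E_s → E_s/p` -/
noncomputable def suCl (p : ℕ) [Fact p.Prime] (s : Finset (Pl M)) :
    Additive ↥(SU s) →+ ↥(SU.space p s) :=
  (SU.clsHom p s).codRestrict (SU.space p s).toAddSubgroup (fun x => ⟨x, rfl⟩)

/-- `E_s/p` is a model of the reduction of `E_s` (`SU.ker_clsHom`). -/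
theorem isModP_su (p : ℕ) [Fact p.Prime] (s : Finset (Pl M))
    (hs : ∀ g : M ≃ₐ[ℚ] M, ∀ v ∈ s, sigmaPl g v ∈ s) :
    IsModP p (suZRep s hs) (suRep p s hs) (suCl p s) := by
  refine ⟨fun g e => Subtype.ext rfl, ?_, fun e => ?_⟩
  · rintro ⟨_, x, rfl⟩
    exact ⟨x, rfl⟩
  · have h1 : suCl p s e = 0 ↔ e ∈ (SU.clsHom p s).ker := by
      rw [AddMonoidHom.mem_ker]
      constructor
      · intro h
        exact congrArg Subtype.val h
      · intro h
        exact Subtype.ext h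
    rw [h1, SU.ker_clsHom (Fact.out : p.Prime).ne_zero]
    constructor
    · rintro ⟨c, rfl⟩
      exact ⟨c, rfl⟩
    · rintro ⟨c, rfl⟩
      exact ⟨c, rfl⟩

end Fermat.Agent.S56.EC
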