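import Fermat.Agent.S56.EC.Units.Defs

/-!
# S56 / EC / Units : WPs EC-U1 .. EC-U6.   The equivariant unit theorem in the Grothendieck group:
`[E_s/p] + [𝔽_p] = [𝔽_p[s]] + [𝔽_p[∞]] + [μ_p]`.

`ψ : ((∞ → ℤ) × (s → ℤ)) × 𝔽_p → E_s × ℤ`, `((n,m),a) ↦ (∏_w ε(w)^{n_w} ∏_v α(v)^{m_v} ζ^a, ∑_w n_w)`, then `AddFun.lattice`.
AVERAGING TRICK (no orbit representatives, no stabilisers):  `ε(w) := ∏_{g ∈ Γ} g(u_{g⁻¹ w})`, `u_w` := Mathlib `exists_unit w`;
`α(v) := ∏_{g ∈ Γ} g(x_{g⁻¹ v})`, `x_v` := `S14.exists_ord_eq_classNumber v`.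
-/

set_option autoImplicit false
set_option linter.unusedSectionVars false

namespace Fermat.Agent.S56.EC

open Fermat.Agent.S14 NumberField
open Fermat.Agent.CFT (IsSES IsoRep chiRep)

attribute [local instance] plAct

/-! ### EC-U1 : the sign pattern lemma (real matrices) -/

/-- `A` real, negative off the diagonal, zero row sums; `n A = 0` and `∑ n = 0` imply `n = 0`.
(Else `P := {i | 0 < n i}` and its complement are nonempty (replace `n` by `-n` if necessary: or note that `n ≠ 0`, `∑ n = 0` forces both signs);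
`0 = ∑_{j ∈ P} (nA)_j = ∑_i n_i ∑_{j ∈ P} A_ij`; for `i ∈ P`: `∑_{j ∈ P} A_ij = -∑_{j ∉ P} A_ij > 0`; for `i ∉ P`: `n_i ≤ 0`, `∑_{j∈P} A_ij < 0`.) -/
theorem eq_zero_of_sign_pattern {ι : Type} [Fintype ι] (A : ι → ι → ℝ)
    (hneg : ∀ i j, i ≠ j → A i j < 0) (hrow : ∀ i, ∑ j, A i j = 0) (n : ι → ℝ)
    (hn : ∀ j, ∑ i, n i * A i j = 0) (hsum : ∑ i, n i = 0) : n = 0 := by
  classical
  by_contra hne
  have hpos : ∃ i, 0 < n i := by
    by_contra h
    push Not at h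
    apply hne
    funext i
    exact (Finset.sum_eq_zero_iff_of_nonpos (fun i _ => h i)).1 hsum i (Finset.mem_univ i)
  have hneg' : ∃ i, n i < 0 := by
    by_contra h
    push Not at h
    apply hne
    funext i
    exact (Finset.sum_eq_zero_iff_of_nonneg (fun i _ => h i)).1 hsum i (Finset.mem_univ i)
  obtain ⟨i0, hi0⟩ := hpos
  obtain ⟨i1, hi1⟩ := hneg'
  set P : Finset ι := Finset.univ.filter (fun i => 0 < n i) with hP
  have hmem : ∀ i, i ∈ P ↔ 0 < n i := fun i => by simp [hP]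
  set c : ι → ℝ := fun i => ∑ j ∈ P, A i j with hc
  have h0 : ∑ i, n i * c i = 0 := by
    simp only [hc, Finset.mul_sum]
    rw [Finset.sum_comm]
    exact Finset.sum_eq_zero (fun j _ => hn j)
  have hc1 : ∀ i, i ∈ P → 0 < c i := by
    intro i hi
    have h1 : c i + ∑ j ∈ Pᶜ, A i j = 0 := by
      simp only [hc]
      rw [Finset.sum_add_sum_compl, hrow]
    have h2 : ∑ j ∈ Pᶜ, A i j < 0 := by
      apply Finset.sum_neg
      · intro j hj
        apply hneg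
        rintro rfl
        exact (Finset.mem_compl.1 hj) hi
      · exact ⟨i1, Finset.mem_compl.2 (fun h => by have := (hmem i1).1 h; linarith)⟩
    linarith
  have hc2 : ∀ i, i ∉ P → c i < 0 := by
    intro i hi
    apply Finset.sum_neg
    · intro j hj
      apply hneg
      rintro rfl
      exact hi hj
    · exact ⟨i0, (hmem i0).2 hi0⟩
  have : 0 < ∑ i, n i * c i := by
    apply Finset.sum_pos'
    · intro i _
      by_cases hi : i ∈ P
      · exact (mul_pos ((hmem i).1 hi) (hc1 i hi)).le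
      · have : n i ≤ 0 := not_lt.1 (fun h => hi ((hmem i).2 h))
        exact mul_nonneg_of_nonpos_of_nonpos this (hc2 i hi).le
    · exact ⟨i0, Finset.mem_univ _, mul_pos hi0 (hc1 i0 ((hmem i0).2 hi0))⟩
  linarith

variable {M : Type} [Field M] [NumberField M]

/-! ### EC-U2 : equivariant Minkowski units -/

/-- the Galois action on the global units -/
noncomputable def unitAct (g : M ≃ₐ[ℚ] M) : (𝓞 M)ˣ →* (𝓞 M)ˣ :=
  Units.map ((RingOfIntegers.mapRingEquiv (g : M ≃+* M) : 𝓞 M →+* 𝓞 M) : 𝓞 M →* 𝓞 M)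

lemma unitAct_coe (g : M ≃ₐ[ℚ] M) (u : (𝓞 M)ˣ) :
    ((unitAct g u : 𝓞 M) : M) = g ((u : 𝓞 M) : M) := rfl

lemma coe_prod_units {ι : Type} (s : Finset ι) (f : ι → (𝓞 M)ˣ) :
    (((∏ i ∈ s, f i : (𝓞 M)ˣ) : 𝓞 M) : M) = ∏ i ∈ s, ((f i : 𝓞 M) : M) := by
  rw [Units.coe_prod]
  exact map_prod (algebraMap (𝓞 M) M) _ _

theorem exists_minkowski_units :
    ∃ ε : InfinitePlace M → (𝓞 M)ˣ,
      (∀ (g : M ≃ₐ[ℚ] M) (w : InfinitePlace M), ((ε (g • w) : 𝓞 M) : M) = g ((ε w : 𝓞 M) : M)) ∧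
      ∀ w w' : InfinitePlace M, w' ≠ w → w' ((ε w : 𝓞 M) : M) < 1 := by
  classical
  choose u hu using fun w : InfinitePlace M => Units.dirichletUnitTheorem.exists_unit M w
  refine ⟨fun w => ∏ g : M ≃ₐ[ℚ] M, unitAct g (u (g⁻¹ • w)), fun h w => ?_, fun w w' hw => ?_⟩
  · rw [coe_prod_units, coe_prod_units, map_prod]
    refine (Fintype.prod_equiv (Equiv.mulLeft h) _ _ (fun g => ?_)).symm
    rw [unitAct_coe, unitAct_coe, Equiv.coe_mulLeft, mul_inv_rev, mul_smul, inv_smul_smul]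
    rfl
  · rw [coe_prod_units, map_prod]
    have h1 : ∀ g : M ≃ₐ[ℚ] M, 0 < w' ((unitAct g (u (g⁻¹ • w)) : 𝓞 M) : M) ∧
        w' ((unitAct g (u (g⁻¹ • w)) : 𝓞 M) : M) < 1 := by
      intro g
      have h2 := hu (g⁻¹ • w) (g⁻¹ • w') (fun h => hw (smul_left_cancel _ h))
      have h3 : (g⁻¹ • w') (((u (g⁻¹ • w) : (𝓞 M)ˣ) : 𝓞 M) : M)
          = w' ((unitAct g (u (g⁻¹ • w)) : 𝓞 M) : M) := by
        rw [InfinitePlace.smul_apply, unitAct_coe]
        rfl
      rw [← h3]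
      have h4 : 0 < (g⁻¹ • w') (((u (g⁻¹ • w) : (𝓞 M)ˣ) : 𝓞 M) : M) := by
        rw [InfinitePlace.pos_iff]
        simp
      exact ⟨h4, (Real.log_neg_iff h4).1 h2⟩
    have h5 := Finset.prod_lt_prod_of_nonempty (s := (Finset.univ : Finset (M ≃ₐ[ℚ] M)))
      (fun g _ => (h1 g).1) (g := fun _ => (1 : ℝ)) (fun g _ => (h1 g).2) ⟨1, Finset.mem_univ _⟩
    simpa using h5

/-! ### EC-U3 : independence -/

lemma place_unit_pos (w : InfinitePlace M) (u : (𝓞 M)ˣ) : 0 < w ((u : 𝓞 M) : M) := by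
  rw [InfinitePlace.pos_iff]
  simp

/-- `u ↦ log |u|_w` -/
noncomputable def logHom (w : InfinitePlace M) : (𝓞 M)ˣ →* Multiplicative ℝ where
  toFun u := Multiplicative.ofAdd (Real.log (w ((u : 𝓞 M) : M)))
  map_one' := by simp
  map_mul' u v := by
    have h : (((u * v : (𝓞 M)ˣ) : 𝓞 M) : M) = ((u : 𝓞 M) : M) * ((v : 𝓞 M) : M) := by
      rw [Units.val_mul]
      exact map_mul (algebraMap (𝓞 M) M) _ _
    rw [← ofAdd_add, h, map_mul,
      Real.log_mul (place_unit_pos w u).ne' (place_unit_pos w v).ne']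

lemma logHom_apply (w : InfinitePlace M) (u : (𝓞 M)ˣ) :
    (logHom w u).toAdd = Real.log (w ((u : 𝓞 M) : M)) := rfl

/-- (`A w w' := mult w' * log (w' (ε w))`, `Units.sum_mult_mul_log`, EC-U1; a root of unity has absolute value `1` at all places.) -/
theorem minkowski_indep (ε : InfinitePlace M → (𝓞 M)ˣ)
    (hε : ∀ w w' : InfinitePlace M, w' ≠ w → w' ((ε w : 𝓞 M) : M) < 1) (n : InfinitePlace M → ℤ)
    (k : ℕ) (hk : k ≠ 0) (h1 : (∏ w, ε w ^ n w) ^ k = 1) (h2 : ∑ w, n w = 0) : n = 0 := by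
  classical
  have key := eq_zero_of_sign_pattern
    (fun w w' => (w'.mult : ℝ) * Real.log (w' ((ε w : 𝓞 M) : M)))
    (fun w w' hww => ?_) (fun w => Units.sum_mult_mul_log (ε w)) (fun w => (n w : ℝ))
    (fun w' => ?_) (by exact_mod_cast h2)
  · funext w
    have h3 : (n w : ℝ) = 0 := congrFun key w
    exact_mod_cast h3
  · have h3 : Real.log (w' ((ε w : 𝓞 M) : M)) < 0 :=
      Real.log_neg (place_unit_pos w' (ε w)) (hε w w' (Ne.symm hww))
    have h4 : (0 : ℝ) < (w'.mult : ℝ) := by exact_mod_cast InfinitePlace.mult_pos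
    exact mul_neg_of_pos_of_neg h4 h3
  · have h3 : (logHom w' ((∏ w, ε w ^ n w) ^ k)).toAdd
        = (k : ℝ) * ∑ w, (n w : ℝ) * Real.log (w' ((ε w : 𝓞 M) : M)) := by
      rw [map_pow, map_prod, toAdd_pow, toAdd_prod, nsmul_eq_mul]
      congr 1
      refine Finset.sum_congr rfl (fun w _ => ?_)
      rw [map_zpow, toAdd_zpow, zsmul_eq_mul, logHom_apply]
    rw [h1, map_one, toAdd_one] at h3
    have h4 : ∑ w, (n w : ℝ) * Real.log (w' ((ε w : 𝓞 M) : M)) = 0 := by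
      have hk' : (k : ℝ) ≠ 0 := by exact_mod_cast hk
      exact (mul_eq_zero.1 h3.symm).resolve_left hk'
    calc ∑ w, (n w : ℝ) * ((w'.mult : ℝ) * Real.log (w' ((ε w : 𝓞 M) : M)))
        = (w'.mult : ℝ) * ∑ w, (n w : ℝ) * Real.log (w' ((ε w : 𝓞 M) : M)) := by
          rw [Finset.mul_sum]
          exact Finset.sum_congr rfl (fun w _ => by ring)
      _ = 0 := by rw [h4, mul_zero]

/-! ### EC-U4 : equivariant generators at the finite places -/

lemma ord_apply_eq (g : M ≃ₐ[ℚ] M) (w : Pl M) (x : M) :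
    ord w (g x) = ord (sigmaPl g⁻¹ w) x := by
  have h := ord_sigmaPl g (sigmaPl g⁻¹ w) x
  rwa [← sigmaPl_mul, mul_inv_cancel, sigmaPl_one] at h

theorem exists_equivariant_primes :
    ∃ (α : Pl M → M) (m : ℕ), m ≠ 0 ∧ (∀ v, α v ≠ 0) ∧
      (∀ (g : M ≃ₐ[ℚ] M) (v : Pl M), α (sigmaPl g v) = g (α v)) ∧
      (∀ v, ord v (α v) = m) ∧ ∀ v w, w ≠ v → ord w (α v) = 0 := by
  classical
  choose x hx0 hx1 hx2 using fun v : Pl M => exists_ord_eq_classNumber v
  have hne : ∀ (v : Pl M) (g : M ≃ₐ[ℚ] M), g (x (sigmaPl g⁻¹ v)) ≠ 0 := fun v g => by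
    simpa using hx0 _
  refine ⟨fun v => ∏ g : M ≃ₐ[ℚ] M, g (x (sigmaPl g⁻¹ v)),
    Fintype.card (M ≃ₐ[ℚ] M) * classNumber M,
    mul_ne_zero Fintype.card_ne_zero (classNumber_ne_zero M),
    fun v => Finset.prod_ne_zero_iff.2 (fun g _ => hne v g), fun h v => ?_, fun v => ?_,
    fun v w hw => ?_⟩
  · rw [map_prod]
    refine (Fintype.prod_equiv (Equiv.mulLeft h) _ _ (fun g => ?_)).symm
    rw [Equiv.coe_mulLeft, mul_inv_rev, sigmaPl_mul, ← sigmaPl_mul h⁻¹ h, inv_mul_cancel,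
      sigmaPl_one]
    rfl
  · rw [ord_prod v _ _ (fun g _ => hne v g)]
    rw [Finset.sum_congr rfl (fun g _ => by rw [ord_apply_eq, hx1])]
    simp
  · rw [ord_prod w _ _ (fun g _ => hne v g)]
    refine Finset.sum_eq_zero (fun g _ => ?_)
    rw [ord_apply_eq]
    exact hx2 _ _ (fun h => hw ((sigmaPl g⁻¹).injective h))

/-! ### EC-U5 : a general finiteness lemma -/

/-- an injective map from a free `ℤ`-module of rank `r` into a finitely generated `ℤ`-module of rank `r` has finite cokernel -/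
theorem finite_quotient_of_finrank_eq {A B : Type} [AddCommGroup A] [AddCommGroup B]
    [Module.Finite ℤ A] [Module.Free ℤ A] [Module.Finite ℤ B] (ψ : A →+ B)
    (hψ : Function.Injective ψ) (hr : Module.finrank ℤ A = Module.finrank ℤ B) :
    Finite (B ⧸ ψ.range) := by
  set f : A →ₗ[ℤ] B := ψ.toIntLinearMap with hf
  have h1 : Module.finrank ℤ (LinearMap.range f) = Module.finrank ℤ A :=
    LinearMap.finrank_range_of_inj hψ
  have h2 := Submodule.finrank_quotient_add_finrank (LinearMap.range f)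
  have h3 : Module.finrank ℤ (B ⧸ LinearMap.range f) = 0 := by omega
  have h4 : Module.IsTorsion ℤ (B ⧸ LinearMap.range f) := Module.finrank_eq_zero_iff_isTorsion.1 h3
  have h5 : Finite (B ⧸ LinearMap.range f) := Module.finite_of_fg_torsion _ h4
  have h6 : (LinearMap.range f).toAddSubgroup = ψ.range := by
    ext x
    simp [hf]
  rw [← h6]
  exact h5

/-! ### EC-U6 : assembly -/

namespace UF

section General

variable {G : Type} [Group G]

/-- equivariance of linear combinations -/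
theorem sum_funRep_smul {Y E : Type} [Fintype Y] [MulAction G Y] [AddCommGroup E]
    (τ : Representation ℤ G E) (u : Y → E) (hu : ∀ g y, τ g (u y) = u (g • y)) (g : G)
    (F : Y → ℤ) :
    ∑ y, (funRep Y (1 : Representation ℤ G ℤ) g F) y • u y = τ g (∑ y, F y • u y) := by
  rw [map_sum]
  simp only [map_zsmul, hu]
  refine (Fintype.sum_equiv (MulAction.toPerm g) _ _ fun y => ?_).symm
  simp [funRep_apply]

theorem sum_funRep {Y : Type} [Fintype Y] [MulAction G Y] (g : G) (F : Y → ℤ) :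
    ∑ y, (funRep Y (1 : Representation ℤ G ℤ) g F) y = ∑ y, F y := by
  refine (Fintype.sum_equiv (MulAction.toPerm g) _ _ fun y => ?_).symm
  simp [funRep_apply]

/-- the `ℤ`-linear form of a character -/
def chiZ {p : ℕ} (χ : G →* (ZMod p)ˣ) : Representation ℤ G (ZMod p) where
  toFun g := (chiRep χ g).toAddMonoidHom.toIntLinearMap
  map_one' := by ext; simp
  map_mul' g h := by ext; simp

theorem chiZ_apply {p : ℕ} (χ : G →* (ZMod p)ˣ) (g : G) (a : ZMod p) :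
    chiZ χ g a = ((χ g : (ZMod p)ˣ) : ZMod p) * a := by
  change chiRep χ g a = _
  simp [chiRep, Representation.twist_apply_apply]


theorem finrank_prod_int (E : Type) [AddCommGroup E] [Module.Finite ℤ E] :
    Module.finrank ℤ (E × ℤ) = Module.finrank ℤ E + 1 := by
  rw [AbIdx.finrank_int_eq_range_add_ker (LinearMap.snd ℤ E ℤ),
    LinearMap.range_eq_top.mpr LinearMap.snd_surjective, finrank_top,
    Module.finrank_self, LinearMap.ker_snd, LinearMap.finrank_range_of_inj LinearMap.inl_injective,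
    add_comm]

/-- the abstract form of the assembly -/
theorem abstract_formula {p : ℕ} [Fact p.Prime] (Φ : AddFun (ZMod p) G) (χ : G →* (ZMod p)ˣ)
    {E XE Y₁ Y₂ : Type} [AddCommGroup E] [Module.Finite ℤ E] [AddCommGroup XE] [Module (ZMod p) XE]
    [Module.Finite (ZMod p) XE] [Fintype Y₁] [Fintype Y₂] [MulAction G Y₁] [MulAction G Y₂]
    (τ : Representation ℤ G E) (σ : Representation (ZMod p) G XE) (cl : E →+ XE)
    (hcl : IsModP p τ σ cl)
    (u₁ : Y₁ → E) (hu₁ : ∀ g y, τ g (u₁ y) = u₁ (g • y))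
    (u₂ : Y₂ → E) (hu₂ : ∀ g y, τ g (u₂ y) = u₂ (g • y))
    (z : E) (hz : p • z = 0) (hzτ : ∀ g, τ g z = ((χ g : (ZMod p)ˣ) : ZMod p).val • z)
    (hinj : ∀ (n : Y₁ → ℤ) (m : Y₂ → ℤ) (a : ℤ), ∑ y, n y • u₁ y + ∑ y, m y • u₂ y + a • z = 0 →
      ∑ y, n y = 0 → n = 0 ∧ m = 0 ∧ (p : ℤ) ∣ a)
    (hrank : Module.finrank ℤ E + 1 = Fintype.card Y₁ + Fintype.card Y₂)
    (htor : ∀ x : E, p • x = 0 → ∃ i : ℤ, x = i • z) :
    Φ.ev σ + Φ.ev (1 : Representation (ZMod p) G (ZMod p)) =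
      Φ.ev (funRep Y₂ (1 : Representation (ZMod p) G (ZMod p))) +
        Φ.ev (funRep Y₁ (1 : Representation (ZMod p) G (ZMod p))) + Φ.ev (chiRep χ) := by
  -- the three pieces of `ψ`
  let ψ₁ : (Y₁ → ℤ) →+ E := (Fintype.linearCombination ℤ u₁).toAddMonoidHom
  let ψ₂ : (Y₂ → ℤ) →+ E := (Fintype.linearCombination ℤ u₂).toAddMonoidHom
  let ψ₃ : ZMod p →+ E := ZMod.lift p ⟨zmultiplesHom E z, by
    rw [zmultiplesHom_apply, natCast_zsmul, hz]⟩
  let S : (Y₁ → ℤ) →+ ℤ := (Fintype.linearCombination ℤ (fun _ : Y₁ => (1 : ℤ))).toAddMonoidHom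
  have hψ₁ : ∀ n, ψ₁ n = ∑ y, n y • u₁ y := fun n => Fintype.linearCombination_apply ℤ u₁ n
  have hψ₂ : ∀ n, ψ₂ n = ∑ y, n y • u₂ y := fun n => Fintype.linearCombination_apply ℤ u₂ n
  have hψ₃ : ∀ a : ℤ, ψ₃ (a : ZMod p) = a • z := fun a => by
    change ZMod.lift p _ (a : ZMod p) = _
    rw [ZMod.lift_coe]
    rfl
  have hS : ∀ n, S n = ∑ y, n y := fun n => by
    change Fintype.linearCombination ℤ (fun _ : Y₁ => (1 : ℤ)) n = _
    rw [Fintype.linearCombination_apply]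
    simp
  let ψ : ((Y₁ → ℤ) × (Y₂ → ℤ)) × ZMod p →+ E × ℤ :=
    AddMonoidHom.prod
      (((ψ₁.comp (AddMonoidHom.fst _ _)).comp (AddMonoidHom.fst _ _)) +
        ((ψ₂.comp (AddMonoidHom.snd _ _)).comp (AddMonoidHom.fst _ _)) +
        (ψ₃.comp (AddMonoidHom.snd _ _)))
      ((S.comp (AddMonoidHom.fst _ _)).comp (AddMonoidHom.fst _ _))
  have hψ : ∀ x, ψ x = (ψ₁ x.1.1 + ψ₂ x.1.2 + ψ₃ x.2, S x.1.1) := fun x => rfl
  let τA := prodRep (prodRep (funRep Y₁ (1 : Representation ℤ G ℤ))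
    (funRep Y₂ (1 : Representation ℤ G ℤ))) (chiZ χ)
  let σA := prodRep (prodRep (funRep Y₁ (1 : Representation (ZMod p) G (ZMod p)))
    (funRep Y₂ (1 : Representation (ZMod p) G (ZMod p)))) (chiRep χ)
  have hA : IsModP p τA σA _ :=
    ((isModP_funRep (p := p) (G := G) Y₁).prod (isModP_funRep (p := p) (G := G) Y₂)).prod
      (isModP_self (chiRep χ) (chiZ χ) fun g x => rfl)
  have hB : IsModP p (prodRep τ (1 : Representation ℤ G ℤ))
      (prodRep σ (1 : Representation (ZMod p) G (ZMod p))) _ := hcl.prod isModP_one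
  have hequiv : ∀ g a, ψ (τA g a) = prodRep τ (1 : Representation ℤ G ℤ) g (ψ a) := by
    intro g a
    obtain ⟨j, hj⟩ := ZMod.intCast_surjective a.2
    rw [hψ, hψ, prodRep_apply]
    refine Prod.ext ?_ ?_
    · change ψ₁ (funRep Y₁ (1 : Representation ℤ G ℤ) g a.1.1) +
          ψ₂ (funRep Y₂ (1 : Representation ℤ G ℤ) g a.1.2) + ψ₃ (chiZ χ g a.2) =
        τ g (ψ₁ a.1.1 + ψ₂ a.1.2 + ψ₃ a.2)
      rw [map_add, map_add, hψ₁, hψ₁, hψ₂, hψ₂, sum_funRep_smul τ u₁ hu₁, sum_funRep_smul τ u₂ hu₂,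
        chiZ_apply, ← hj, hψ₃, map_zsmul, hzτ]
      congr 1
      have h1 : ((χ g : (ZMod p)ˣ) : ZMod p) * (j : ZMod p)
          = (((((χ g : (ZMod p)ˣ) : ZMod p).val : ℤ) * j : ℤ) : ZMod p) := by
        push_cast
        rw [ZMod.natCast_val, ZMod.cast_id', id_eq]
      rw [h1, hψ₃, mul_comm, mul_smul, natCast_zsmul]
    · change S (funRep Y₁ (1 : Representation ℤ G ℤ) g a.1.1) = S a.1.1
      rw [hS, hS, sum_funRep]
  have hinjψ : Function.Injective ψ := by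
    rw [injective_iff_map_eq_zero]
    intro a ha
    obtain ⟨j, hj⟩ := ZMod.intCast_surjective a.2
    rw [hψ, Prod.mk_eq_zero, hψ₁, hψ₂, ← hj, hψ₃, hS] at ha
    obtain ⟨h1, h2, h3⟩ := hinj _ _ _ ha.1 ha.2
    refine Prod.ext (Prod.ext h1 h2) ?_
    rw [← hj]
    exact (ZMod.intCast_zmod_eq_zero_iff_dvd j p).mpr h3
  have hfin : Finite ((E × ℤ) ⧸ ψ.range) := by
    let ψ₀ : (Y₁ → ℤ) × (Y₂ → ℤ) →+ E × ℤ := ψ.comp (AddMonoidHom.inl _ _)
    have h0 : Function.Injective ψ₀ := hinjψ.comp (fun x y h => congrArg Prod.fst h)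
    have hr : Module.finrank ℤ ((Y₁ → ℤ) × (Y₂ → ℤ)) = Module.finrank ℤ (E × ℤ) := by
      rw [Module.finrank_prod, Module.finrank_pi, Module.finrank_pi, finrank_prod_int, hrank]
    have h1 := finite_quotient_of_finrank_eq ψ₀ h0 hr
    have h2 : ψ₀.range ≤ ψ.range := by
      rintro _ ⟨x, rfl⟩
      exact ⟨_, rfl⟩
    have h3 : ψ₀.range.FiniteIndex := AddSubgroup.finiteIndex_of_finite_quotient
    have h4 : ψ.range.FiniteIndex := AddSubgroup.finiteIndex_of_le h2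
    exact AddSubgroup.finite_quotient_of_finiteIndex
  have htorψ : ∀ b : E × ℤ, p • b = 0 → b ∈ ψ.range := by
    rintro ⟨x, k⟩ hb
    rw [Prod.smul_mk, Prod.mk_eq_zero] at hb
    obtain ⟨i, rfl⟩ := htor x hb.1
    have hk : k = 0 := by
      have hp : (p : ℤ) ≠ 0 := by exact_mod_cast (Fact.out : p.Prime).ne_zero
      have := hb.2
      rw [nsmul_eq_mul] at this
      exact (mul_eq_zero.mp this).resolve_left hp
    refine ⟨((0, 0), (i : ZMod p)), ?_⟩
    rw [hψ, hk]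
    refine Prod.ext ?_ ?_
    · change ψ₁ 0 + ψ₂ 0 + ψ₃ (i : ZMod p) = _
      rw [map_zero, map_zero, hψ₃, zero_add, zero_add]
    · exact map_zero S
  have key := Φ.lattice hA hB ψ hequiv hinjψ hfin htorψ
  rw [Φ.ev_prod, Φ.ev_prod, Φ.ev_prod] at key
  linarith

end General

section Concrete

variable {M : Type} [Field M] [NumberField M]

/-- the underlying element of `M` -/
def vM {s : Finset (Pl M)} (x : Additive ↥(SU s)) : M := ((x.toMul : ↥(SU s)) : Mˣ)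

theorem vM_injective {s : Finset (Pl M)} : Function.Injective (vM (s := s)) := by
  intro x y h
  exact congrArg Additive.ofMul (Subtype.ext (Units.ext h))

theorem vM_zero {s : Finset (Pl M)} : vM (0 : Additive ↥(SU s)) = 1 := rfl

theorem vM_add {s : Finset (Pl M)} (x y : Additive ↥(SU s)) : vM (x + y) = vM x * vM y := rfl

theorem vM_nsmul {s : Finset (Pl M)} (n : ℕ) (x : Additive ↥(SU s)) : vM (n • x) = vM x ^ n := by
  simp [vM]

theorem vM_zsmul {s : Finset (Pl M)} (n : ℤ) (x : Additive ↥(SU s)) : vM (n • x) = vM x ^ n := by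
  simp [vM]

theorem vM_suZRep {s : Finset (Pl M)} (hs : ∀ g : M ≃ₐ[ℚ] M, ∀ v ∈ s, sigmaPl g v ∈ s)
    (g : M ≃ₐ[ℚ] M) (x : Additive ↥(SU s)) : vM (suZRep s hs g x) = g (vM x) := rfl

theorem ord_of_pow_eq_one {p : ℕ} (hp : p ≠ 0) {ζ : M} (h : ζ ^ p = 1) (v : Pl M) :
    ord v ζ = 0 := by
  have h4 := ord_pow v ζ p
  rw [h, ord_one] at h4
  have hp' : (p : ℤ) ≠ 0 := by exact_mod_cast hp
  exact (mul_eq_zero.1 h4.symm).resolve_left hp'

theorem nsmul_neg_comm_aux {E : Type} [AddCommGroup E] (p : ℕ) (a : ℤ) (z : E) (h : p • z = 0) :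
    p • -(a • z) = 0 := by
  rw [neg_nsmul, ← natCast_zsmul, smul_comm, natCast_zsmul, h, smul_zero, neg_zero]

theorem units_formula {p : ℕ} [Fact p.Prime] (Φ : AddFun (ZMod p) (M ≃ₐ[ℚ] M)) {ζ : M}
    (hζ : IsPrimitiveRoot ζ p) (χ : (M ≃ₐ[ℚ] M) →* (ZMod p)ˣ)
    (hχ : ∀ g : M ≃ₐ[ℚ] M, g ζ = ζ ^ ((χ g : (ZMod p)ˣ) : ZMod p).val) (s : Finset (Pl M))
    (hs : ∀ g : M ≃ₐ[ℚ] M, ∀ v ∈ s, sigmaPl g v ∈ s) :
    Φ.ev (suRep p s hs) + Φ.ev (1 : Representation (ZMod p) (M ≃ₐ[ℚ] M) (ZMod p)) =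
      Φ.ev (funRep ↥(plSub s hs) (1 : Representation (ZMod p) (M ≃ₐ[ℚ] M) (ZMod p))) +
        Φ.ev (funRep (InfinitePlace M) (1 : Representation (ZMod p) (M ≃ₐ[ℚ] M) (ZMod p))) +
        Φ.ev (chiRep χ) := by
  classical
  have hp : p.Prime := Fact.out
  obtain ⟨ε, hε1, hε2⟩ := exists_minkowski_units (M := M)
  obtain ⟨α, m₀, hm₀, hα0, hα1, hα2, hα3⟩ := exists_equivariant_primes (M := M)
  have := SU.finite_space hζ s
  have : Module.Finite (ZMod p) (SU.space p s) := Module.Finite.of_finite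
  let _ : Fintype ↥(plSub s hs) := Fintype.ofFinite _
  let u₁ : InfinitePlace M → Additive ↥(SU s) := fun w => SU.ofUnits s (Additive.ofMul (ε w))
  let u₂ : ↥(plSub s hs) → Additive ↥(SU s) := fun v =>
    Additive.ofMul ⟨Units.mk0 (α v.1) (hα0 v.1), fun w hw => hα3 v.1 w (fun h => hw (h ▸ v.2))⟩
  let z : Additive ↥(SU s) := Additive.ofMul ⟨Units.mk0 ζ (hζ.ne_zero hp.ne_zero),
    fun w _ => ord_of_pow_eq_one hp.ne_zero hζ.pow_eq_one w⟩
  have hu₁ : ∀ w, vM (u₁ w) = ((ε w : 𝓞 M) : M) := fun w => rfl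
  have hu₂ : ∀ v, vM (u₂ v) = α v.1 := fun v => rfl
  have hz : vM z = ζ := rfl
  have hpz : p • z = 0 := by
    apply vM_injective
    rw [vM_nsmul, hz, hζ.pow_eq_one, vM_zero]
  refine abstract_formula Φ χ (suZRep s hs) (suRep p s hs) (suCl p s) (isModP_su p s hs)
    u₁ ?_ u₂ ?_ z hpz ?_ ?_ ?_ ?_
  · intro g w
    apply vM_injective
    rw [vM_suZRep, hu₁, hu₁, hε1]
  · intro g v
    apply vM_injective
    rw [vM_suZRep, hu₂, hu₂, ← hα1]
    rfl
  · intro g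
    apply vM_injective
    rw [vM_suZRep, vM_nsmul, hz, hχ]
  · intro n m a h h2
    -- the finite part
    have hm : m = 0 := by
      funext v
      have h3 := congrFun (congrArg (SU.ordMap s) h) ⟨v.1, v.2⟩
      rw [map_add, map_add, map_sum, map_sum, map_zsmul, map_zero] at h3
      simp only [map_zsmul, Pi.add_apply, Finset.sum_apply, Pi.smul_apply, SU.ordMap_apply,
        Pi.zero_apply, smul_eq_mul] at h3
      have e1 : ∀ w, ord v.1 (((u₁ w).toMul : Mˣ) : M) = 0 := fun w => ord_unit v.1 (ε w)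
      have e2 : ord v.1 ((z.toMul : Mˣ) : M) = 0 :=
        ord_of_pow_eq_one hp.ne_zero hζ.pow_eq_one v.1
      have e3 : ∀ v', ord v.1 (((u₂ v').toMul : Mˣ) : M) = if v' = v then (m₀ : ℤ) else 0 := by
        intro v'
        split_ifs with hv
        · rw [hv]; exact hα2 v.1
        · exact hα3 v'.1 v.1 (fun h => hv (Subtype.ext h.symm))
      simp only [e1, e2, e3, mul_zero, Finset.sum_const_zero, zero_add, add_zero, mul_ite,
        Finset.sum_ite_eq', Finset.mem_univ, if_true] at h3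
      have hm₀' : (m₀ : ℤ) ≠ 0 := by exact_mod_cast hm₀
      exact (mul_eq_zero.mp h3).resolve_right hm₀'
    subst hm
    simp only [Pi.zero_apply, zero_smul, Finset.sum_const_zero, add_zero] at h
    -- the infinite part
    have hn : n = 0 := by
      have h3 : p • ∑ w, n w • u₁ w = 0 := by
        have : ∑ w, n w • u₁ w = -(a • z) := eq_neg_of_add_eq_zero_left h
        rw [this, nsmul_neg_comm_aux p a z hpz]
      have h4 : ∑ w, n w • u₁ w = SU.ofUnits s (∑ w, n w • Additive.ofMul (ε w)) := by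
        rw [map_sum]
        simp only [map_zsmul]
        rfl
      rw [h4, ← map_nsmul] at h3
      have h5 := SU.ofUnits_injective s (h3.trans (map_zero _).symm)
      have h6 : (∏ w, ε w ^ n w) ^ p = 1 := by
        have := congrArg Additive.toMul h5
        simpa using this
      exact minkowski_indep ε hε2 n p hp.ne_zero h6 h2
    subst hn
    simp only [Pi.zero_apply, zero_smul, Finset.sum_const_zero, zero_add] at h
    refine ⟨rfl, rfl, ?_⟩
    have h7 := congrArg vM h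
    rw [vM_zsmul, hz, vM_zero] at h7
    exact (hζ.zpow_eq_one_iff_dvd a).mp h7
  · rw [SU.finrank_eq, Units.rank]
    have h1 : 0 < Fintype.card (InfinitePlace M) := Fintype.card_pos
    have h2 : Fintype.card ↥(plSub s hs) = s.card :=
      Fintype.card_of_subtype (p := fun v => v ∈ plSub s hs) s (fun x => Iff.rfl)
    rw [h2]
    omega
  · intro x hx
    have h1 := congrArg vM hx
    rw [vM_nsmul, vM_zero] at h1
    have : NeZero p := ⟨hp.ne_zero⟩
    obtain ⟨i, -, hi⟩ := hζ.eq_pow_of_pow_eq_one h1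
    refine ⟨(i : ℤ), vM_injective ?_⟩
    rw [vM_zsmul, hz, zpow_natCast, hi]

end Concrete

end UF

/-- **The equivariant unit theorem.**  (`AddFun.lattice`, models: `isModP_su`, `isModP_one`, `isModP_funRep`, `isModP_self`, `IsModP.prod`;
rank: `SU.finrank_eq`; torsion: `x ^ p = 1 ⇒ x = ζ ^ a`; `ev_prod`.) -/
theorem units_formula {p : ℕ} [Fact p.Prime] (Φ : AddFun (ZMod p) (M ≃ₐ[ℚ] M)) {ζ : M}
    (hζ : IsPrimitiveRoot ζ p) (χ : (M ≃ₐ[ℚ] M) →* (ZMod p)ˣ)
    (hχ : ∀ g : M ≃ₐ[ℚ] M, g ζ = ζ ^ ((χ g : (ZMod p)ˣ) : ZMod p).val) (s : Finset (Pl M))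
    (hs : ∀ g : M ≃ₐ[ℚ] M, ∀ v ∈ s, sigmaPl g v ∈ s) :
    Φ.ev (suRep p s hs) + Φ.ev (1 : Representation (ZMod p) (M ≃ₐ[ℚ] M) (ZMod p)) =
      Φ.ev (funRep ↥(plSub s hs) (1 : Representation (ZMod p) (M ≃ₐ[ℚ] M) (ZMod p))) +
        Φ.ev (funRep (InfinitePlace M) (1 : Representation (ZMod p) (M ≃ₐ[ℚ] M) (ZMod p))) +
        Φ.ev (chiRep χ) :=
  UF.units_formula Φ hζ χ hχ s hs

end Fermat.Agent.S56.EC
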